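import Fermat.Agent.Lib.ChebQ.Spec

/-!
# CHEB-Q: calculus of lower / upper Dirichlet densities (helper968)

Elementary properties of `Spec.HasLowerDensity` and `Spec.HasUpperDensity` (finite-set forms):
monotonicity, removal of finitely many primes, superadditivity over finitely many pairwise
disjoint sets, and `lower ≤ upper` for nested sets.
-/

set_option autoImplicit false

namespace Fermat.Agent.Lib.ChebQ.H968

open Fermat.Agent.Lib.ChebQ.Spec

/-- `log (1 / (s - 1)) ≥ 0` on `(1, 2]`. -/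
theorem logTerm_nonneg {s : ℝ} (h1 : 1 < s) (h2 : s ≤ 2) : 0 ≤ Real.log (1 / (s - 1)) := by
  apply Real.log_nonneg
  rw [le_div_iff₀ (by linarith)]
  linarith

/-- `p ^ (-s) ≤ 1` for a natural number `p` and `s > 0`. -/
theorem natCast_rpow_neg_le_one (p : ℕ) {s : ℝ} (hs : 0 < s) : (p : ℝ) ^ (-s) ≤ 1 := by
  rcases Nat.eq_zero_or_pos p with h | h
  · subst h
    rw [Nat.cast_zero, Real.zero_rpow (by linarith)]
    exact zero_le_one
  · have h1 : (1 : ℝ) ≤ p := by exact_mod_cast h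
    exact Real.rpow_le_one_of_one_le_of_nonpos h1 (by linarith)

theorem natCast_rpow_neg_nonneg (p : ℕ) (s : ℝ) : 0 ≤ (p : ℝ) ^ (-s) :=
  Real.rpow_nonneg (Nat.cast_nonneg p) _

theorem HasLowerDensity.mono_set {X Y : Set ℕ} {d : ℝ} (h : HasLowerDensity X d) (hXY : X ⊆ Y) :
    HasLowerDensity Y d := by
  obtain ⟨K, hK⟩ := h
  refine ⟨K, fun s h1 h2 => ?_⟩
  obtain ⟨T, hT, hsum⟩ := hK s h1 h2
  exact ⟨T, hT.trans hXY, hsum⟩

theorem HasLowerDensity.mono_const {X : Set ℕ} {d d' : ℝ} (h : HasLowerDensity X d)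
    (hd : d' ≤ d) : HasLowerDensity X d' := by
  obtain ⟨K, hK⟩ := h
  refine ⟨K, fun s h1 h2 => ?_⟩
  obtain ⟨T, hT, hsum⟩ := hK s h1 h2
  refine ⟨T, hT, le_trans ?_ hsum⟩
  have := mul_le_mul_of_nonneg_right hd (logTerm_nonneg h1 h2)
  linarith

/-- Removing finitely many primes does not change the lower density. -/
theorem HasLowerDensity.diff_finset {X : Set ℕ} {d : ℝ} (h : HasLowerDensity X d)
    (B : Finset ℕ) : HasLowerDensity (X \ ↑B) d := by
  classical
  obtain ⟨K, hK⟩ := h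
  refine ⟨K + B.card, fun s h1 h2 => ?_⟩
  obtain ⟨T, hT, hsum⟩ := hK s h1 h2
  refine ⟨T \ B, ?_, ?_⟩
  · intro p hp
    rw [Finset.coe_sdiff] at hp
    exact ⟨hT hp.1, hp.2⟩
  · have hsplit : ∑ p ∈ T, (p : ℝ) ^ (-s) =
        ∑ p ∈ T \ B, (p : ℝ) ^ (-s) + ∑ p ∈ T ∩ B, (p : ℝ) ^ (-s) := by
      rw [← Finset.sum_union (Finset.disjoint_sdiff_inter T B), Finset.sdiff_union_inter]
    have hB : ∑ p ∈ T ∩ B, (p : ℝ) ^ (-s) ≤ B.card := by
      calc ∑ p ∈ T ∩ B, (p : ℝ) ^ (-s) ≤ ∑ _p ∈ T ∩ B, (1 : ℝ) :=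
            Finset.sum_le_sum (fun p _ => natCast_rpow_neg_le_one p (by linarith))
        _ = ((T ∩ B).card : ℝ) := by simp
        _ ≤ B.card := by exact_mod_cast Finset.card_le_card Finset.inter_subset_right
    linarith

/-- Superadditivity of the lower density over finitely many pairwise disjoint sets. -/
theorem hasLowerDensity_biUnion {ι : Type*} (I : Finset ι) (X : ι → Set ℕ) (d : ι → ℝ)
    (hdisj : ∀ i ∈ I, ∀ j ∈ I, i ≠ j → Disjoint (X i) (X j))
    (h : ∀ i ∈ I, HasLowerDensity (X i) (d i)) :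
    HasLowerDensity (⋃ i ∈ I, X i) (∑ i ∈ I, d i) := by
  classical
  have h' : ∀ i : ι, ∃ K : ℝ, i ∈ I → ∀ s : ℝ, 1 < s → s ≤ 2 → ∃ T : Finset ℕ, (↑T ⊆ X i) ∧
      d i * Real.log (1 / (s - 1)) - K ≤ ∑ p ∈ T, (p : ℝ) ^ (-s) := by
    intro i
    by_cases hi : i ∈ I
    · obtain ⟨K, hK⟩ := h i hi
      exact ⟨K, fun _ => hK⟩
    · exact ⟨0, fun hi' => absurd hi' hi⟩
  choose K hK using h'
  refine ⟨∑ i ∈ I, K i, fun s h1 h2 => ?_⟩
  have h'' : ∀ i : ι, ∃ T : Finset ℕ, i ∈ I → (↑T ⊆ X i) ∧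
      d i * Real.log (1 / (s - 1)) - K i ≤ ∑ p ∈ T, (p : ℝ) ^ (-s) := by
    intro i
    by_cases hi : i ∈ I
    · obtain ⟨T, hT⟩ := hK i hi s h1 h2
      exact ⟨T, fun _ => hT⟩
    · exact ⟨∅, fun hi' => absurd hi' hi⟩
  choose T hT using h''
  refine ⟨I.biUnion T, ?_, ?_⟩
  · intro p hp
    rw [Finset.coe_biUnion] at hp
    simp only [Set.mem_iUnion] at hp ⊢
    obtain ⟨i, hi, hpi⟩ := hp
    exact ⟨i, hi, (hT i hi).1 hpi⟩
  · have hdisjT : Set.PairwiseDisjoint (↑I : Set ι) T := by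
      intro i hi j hj hij
      rw [Function.onFun, Finset.disjoint_left]
      intro p hpi hpj
      have := hdisj i hi j hj hij
      exact Set.disjoint_left.mp this ((hT i hi).1 hpi) ((hT j hj).1 hpj)
    rw [Finset.sum_biUnion hdisjT, Finset.sum_mul, ← Finset.sum_sub_distrib]
    exact Finset.sum_le_sum (fun i hi => (hT i hi).2)

/-- A set of upper density `≤ η` cannot contain a set of lower density `≥ d > η`. -/
theorem le_of_hasLowerDensity_of_hasUpperDensity {X Y : Set ℕ} {d η : ℝ}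
    (hY : HasLowerDensity Y d) (hX : HasUpperDensity X η) (hYX : Y ⊆ X) : d ≤ η := by
  obtain ⟨K, hK⟩ := hY
  obtain ⟨K', hK'⟩ := hX
  by_contra hcon
  have hlt : η < d := not_le.mp hcon
  -- choose `s = 1 + exp (-M)` with `M` large
  set M : ℝ := max 0 ((K + K') / (d - η) + 1) with hM
  have hM0 : 0 ≤ M := le_max_left _ _
  have hM1 : (K + K') / (d - η) + 1 ≤ M := le_max_right _ _
  set s : ℝ := 1 + Real.exp (-M) with hs
  have h1 : 1 < s := by
    have := Real.exp_pos (-M)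
    linarith
  have h2 : s ≤ 2 := by
    have : Real.exp (-M) ≤ 1 := Real.exp_le_one_iff.mpr (by linarith)
    linarith
  have hlog : Real.log (1 / (s - 1)) = M := by
    have : s - 1 = Real.exp (-M) := by rw [hs]; ring
    rw [this, one_div, ← Real.exp_neg, neg_neg, Real.log_exp]
  obtain ⟨T, hT, hsum⟩ := hK s h1 h2
  have hup := hK' s h1 h2 T (hT.trans hYX)
  rw [hlog] at hsum hup
  have h3 : (d - η) * M ≤ K + K' := by linarith
  have hpos : 0 < d - η := by linarith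
  have h4 : (K + K') / (d - η) < M := by linarith
  rw [div_lt_iff₀ hpos] at h4
  linarith

end Fermat.Agent.Lib.ChebQ.H968
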