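import Fermat.Agent.Lib.ChebQ.H968.Count
import Fermat.Agent.Lib.ChebQ.H968.Density
import Fermat.Agent.Lib.Cheb.H236.Cross
import Fermat.Agent.Lib.Cheb.H583.CycAlgBase

/-!
# CHEB-Q, piece CROSS-Q: quantitative field crossing (helper968)

`theorem crossDensity : Spec.CrossDensityStatement`, i.e.
`FrobStatement → CycDensityStatement → ChebDensityStatement`.

For `σ ∈ Gal(L/ℚ)` of order `n` and `δ > 0` choose `k ≥ 1` with `n / 2 ^ k ≤ δ` and a prime
`m ≡ 1 mod n ^ k`, `m > |disc L|`; put `M = L(ζ_m)` (`H236.CrossField`).  For every `t ∈ (ℤ/m)ˣ`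
with `n ∣ ord t` the lift `g_t = (σ, t)` of `H236.exists_crossLift` acts faithfully on `ζ`, so the
primes with Frobenius `g_t` have lower density `≥ 1/|C(g_t)| ≥ 1/(|C(σ)| (m-1))`.  These sets of
primes are pairwise disjoint (a prime with Frobenius `g_t` is `≡ t mod m`), restrict to primes with
Frobenius `σ` in `L`, and there are at least `(1 - n/2^k)(m-1)` such `t`.
-/

set_option autoImplicit false
set_option linter.style.haveILetI false
set_option linter.unusedSectionVars false

namespace Fermat.Agent.Lib.ChebQ.H968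

open NumberField
open Fermat.Agent.Lib.Cheb
open Fermat.Agent.Lib.Cheb.H236
open Fermat.Agent.Lib.ChebQ.Spec

section Cross

variable (L : Type) [Field L] [NumberField L] (m : ℕ) [hm : Fact m.Prime]

/-- A prime `p ≠ m` with Frobenius `g` in `L(ζ_m)` is congruent mod `m` to the exponent of `g`
on `ζ`. -/
theorem natCast_eq_of_mem_frobPrimes (t : (ZMod m)ˣ)
    (g : CrossField L m ≃ₐ[ℚ] CrossField L m)
    (hg2 : g (crossZeta L m) = crossZeta L m ^ (t : ZMod m).val) {p : ℕ}
    (hp : p ∈ frobPrimes (CrossField L m) g) (hpm : p ≠ m) :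
    (p : ZMod m) = (t : ZMod m) := by
  obtain ⟨hpp, P', hP', hpP', -, hfrob⟩ := hp
  have hζ := crossZeta_spec L m
  have hndvd : ¬ p ∣ m := fun h => hpm ((Nat.prime_dvd_prime_iff_eq hpp hm.out).mp h)
  have h1 := H583.frob_apply_root hpp hndvd hP' hpP' hfrob hm.out.pos hζ.pow_eq_one
  rw [hg2] at h1
  have h2 : (t : ZMod m).val ≡ p [MOD m] := by
    have hord : orderOf (crossZeta L m) = m := hζ.eq_orderOf.symm
    have e1 := pow_mod_orderOf (crossZeta L m) (t : ZMod m).val
    have e2 := pow_mod_orderOf (crossZeta L m) p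
    rw [hord] at e1 e2
    have e3 : crossZeta L m ^ ((t : ZMod m).val % m) = crossZeta L m ^ (p % m) := by
      rw [e1, e2, h1]
    exact hζ.pow_inj (Nat.mod_lt _ hm.out.pos) (Nat.mod_lt _ hm.out.pos) e3
  have h3 : (((t : ZMod m).val : ℕ) : ZMod m) = (p : ZMod m) :=
    (ZMod.natCast_eq_natCast_iff _ _ _).mpr h2
  rw [← h3, ZMod.natCast_zmod_val]

/-- Restriction of Frobenius primes from the crossing field to `L`. -/
theorem mem_frobPrimes_of_crossField (σ : L ≃ₐ[ℚ] L)
    (g : CrossField L m ≃ₐ[ℚ] CrossField L m)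
    (hg1 : ∀ x : L, g (algebraMap L (CrossField L m) x) = algebraMap L (CrossField L m) (σ x))
    (B : Finset ℕ)
    (hB : ∀ p : ℕ, p.Prime → p ∉ B → ∀ P : Ideal (𝓞 L), P.IsPrime → (p : 𝓞 L) ∈ P →
      Spec.InertiaTrivial L P)
    {p : ℕ} (hp : p ∈ frobPrimes (CrossField L m) g) (hpB : p ∉ B) :
    p ∈ frobPrimes L σ := by
  obtain ⟨hpp, P', hP', hpP', -, hfrob⟩ := hp
  haveI := hP'
  set P : Ideal (𝓞 L) := P'.comap (algebraMap (𝓞 L) (𝓞 (CrossField L m))) with hP
  have hPprime : P.IsPrime := Ideal.comap_isPrime _ _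
  have hpP : (p : 𝓞 L) ∈ P := by
    rw [hP, Ideal.mem_comap, map_natCast]
    exact hpP'
  exact ⟨hpp, P, hPprime, hpP, hB p hpp hpB P hPprime hpP, isArithFrobAt_comap σ g hg1 P' hfrob⟩

variable [IsGalois ℚ L]

/-- an automorphism of `L(ζ_m)` is determined by its restriction to `L` and its value at `ζ`. -/
theorem crossField_algEquiv_ext (h h' : CrossField L m ≃ₐ[ℚ] CrossField L m)
    (hL : ∀ x : L, h (algebraMap L (CrossField L m) x) = h' (algebraMap L (CrossField L m) x))
    (hζ : h (crossZeta L m) = h' (crossZeta L m)) : h = h' := by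
  ext y
  have hy : y ∈ Algebra.adjoin L ({crossZeta L m} : Set (CrossField L m)) := by
    rw [IsCyclotomicExtension.adjoin_primitive_root_eq_top (crossZeta_spec L m)]
    trivial
  induction hy using Algebra.adjoin_induction with
  | mem z hz =>
    rw [Set.mem_singleton_iff] at hz
    subst hz
    exact hζ
  | algebraMap r => exact hL r
  | add _ _ _ _ hx hy => rw [map_add, map_add, hx, hy]
  | mul _ _ _ _ hx hy => rw [map_mul, map_mul, hx, hy]

/-- The centralizer of a crossing lift `g` of `σ` has at most `|C(σ)| (m - 1)` elements. -/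
theorem card_centralizer_crossLift_le (σ : L ≃ₐ[ℚ] L)
    (g : CrossField L m ≃ₐ[ℚ] CrossField L m)
    (hg1 : ∀ x : L, g (algebraMap L (CrossField L m) x) = algebraMap L (CrossField L m) (σ x)) :
    Nat.card (Subgroup.centralizer ({g} : Set (CrossField L m ≃ₐ[ℚ] CrossField L m))) ≤
      Nat.card (Subgroup.centralizer ({σ} : Set (L ≃ₐ[ℚ] L))) * (m - 1) := by
  classical
  haveI : Normal ℚ L := IsGalois.to_normal
  have hζ := crossZeta_spec L m
  let r : (CrossField L m ≃ₐ[ℚ] CrossField L m) →* (L ≃ₐ[ℚ] L) := AlgEquiv.restrictNormalHom L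
  have hr : ∀ (h : CrossField L m ≃ₐ[ℚ] CrossField L m) (x : L),
      algebraMap L (CrossField L m) (r h x) = h (algebraMap L (CrossField L m) x) := fun h x =>
    AlgEquiv.restrictNormal_commutes h L x
  have hrg : r g = σ := by
    ext x
    apply (algebraMap L (CrossField L m)).injective
    rw [hr, hg1]
  have hmem : ∀ h : Subgroup.centralizer ({g} : Set (CrossField L m ≃ₐ[ℚ] CrossField L m)),
      r h.1 ∈ Subgroup.centralizer ({σ} : Set (L ≃ₐ[ℚ] L)) := by
    intro h
    rw [Subgroup.mem_centralizer_iff]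
    intro y hy
    rw [Set.mem_singleton_iff] at hy
    subst hy
    have := (Subgroup.mem_centralizer_iff.mp h.2) g (Set.mem_singleton g)
    rw [← hrg, ← map_mul, ← map_mul, this]
  have hprim : ∀ h : CrossField L m ≃ₐ[ℚ] CrossField L m,
      h (crossZeta L m) ∈ primitiveRoots m (CrossField L m) := by
    intro h
    rw [mem_primitiveRoots hm.out.pos]
    exact hζ.map_of_injective h.injective
  let F : Subgroup.centralizer ({g} : Set (CrossField L m ≃ₐ[ℚ] CrossField L m)) →
      Subgroup.centralizer ({σ} : Set (L ≃ₐ[ℚ] L)) × ↥(primitiveRoots m (CrossField L m)) :=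
    fun h => (⟨r h.1, hmem h⟩, ⟨h.1 (crossZeta L m), hprim h.1⟩)
  have hF : Function.Injective F := by
    intro h h' hh
    have h1 : r h.1 = r h'.1 := congrArg (fun z => (z.1 : L ≃ₐ[ℚ] L)) hh
    have h2 : h.1 (crossZeta L m) = h'.1 (crossZeta L m) :=
      congrArg (fun z => (z.2 : CrossField L m)) hh
    apply Subtype.ext
    apply crossField_algEquiv_ext L m h.1 h'.1 _ h2
    intro x
    rw [← hr, ← hr, h1]
  have hcard := Nat.card_le_card_of_injective F hF
  rw [Nat.card_prod] at hcard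
  have h3 : Nat.card ↥(primitiveRoots m (CrossField L m)) = m - 1 := by
    rw [Nat.card_eq_fintype_card, Fintype.card_coe, hζ.card_primitiveRoots,
      Nat.totient_prime hm.out]
  rwa [h3] at hcard

end Cross

/-- **CROSS-Q**: quantitative field crossing. -/
theorem crossDensity : CrossDensityStatement := by
  intro hD hCyc L _ _ _ σ δ hδ
  classical
  obtain ⟨B, hB⟩ := hD L
  have hB' : ∀ p : ℕ, p.Prime → p ∉ B → ∀ P : Ideal (𝓞 L), P.IsPrime → (p : 𝓞 L) ∈ P →
      Spec.InertiaTrivial L P := fun p hp hpB P hP hpP => (hB p hp hpB P hP hpP).1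
  set n := orderOf σ with hn
  have hn0 : n ≠ 0 := (orderOf_pos σ).ne'
  obtain ⟨k, hk1, hkδ⟩ := exists_pow_two_ge n hδ
  obtain ⟨m, hmp, hmgt, hmod⟩ :=
    Nat.exists_prime_gt_modEq_one (k := n ^ k) (discr L).natAbs (pow_ne_zero k hn0)
  haveI : Fact m.Prime := ⟨hmp⟩
  have hdisc : ¬ (m : ℤ) ∣ discr L := by
    intro hdvd
    have h1 : m ∣ (discr L).natAbs := Int.natCast_dvd.mp hdvd
    have h2 : (discr L).natAbs ≠ 0 := Int.natAbs_ne_zero.mpr (discr_ne_zero L)
    exact absurd (Nat.le_of_dvd (Nat.pos_of_ne_zero h2) h1) (not_le.mpr hmgt)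
  haveI := isGalois_crossField L m
  haveI : IsCyclic (ZMod m)ˣ := ZMod.isCyclic_units_prime hmp
  have hcard : Fintype.card (ZMod m)ˣ = m - 1 := by
    rw [ZMod.card_units_eq_totient, Nat.totient_prime hmp]
  have hdvd : n ^ k ∣ Fintype.card (ZMod m)ˣ := by
    rw [hcard]
    exact (Nat.modEq_iff_dvd' hmp.one_lt.le).mp hmod.symm
  set Good : Finset (ZMod m)ˣ := Finset.univ.filter (fun t : (ZMod m)ˣ => n ∣ orderOf t)
    with hGood
  have hGoodcard := card_filter_dvd_orderOf_ge (U := (ZMod m)ˣ) hk1 hdvd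
  rw [hcard] at hGoodcard
  -- the lifts
  have hlift := fun t : (ZMod m)ˣ => exists_crossLift L m hdisc σ t
  choose g hg1 hg2 using hlift
  set c : ℝ := (Nat.card (Subgroup.centralizer ({σ} : Set (L ≃ₐ[ℚ] L))) : ℝ) with hc
  have hc1 : 1 ≤ c := by
    rw [hc]
    exact_mod_cast Nat.one_le_iff_ne_zero.mpr Nat.card_pos.ne'
  have hm1 : (1 : ℝ) ≤ ((m - 1 : ℕ) : ℝ) := by
    have := hmp.two_le
    exact_mod_cast (by omega : 1 ≤ m - 1)
  set B' : Finset ℕ := insert m B with hB'def
  -- density of each good `t`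
  have ht : ∀ t ∈ Good, HasLowerDensity (frobPrimes (CrossField L m) (g t) \ ↑B')
      ((c * ((m - 1 : ℕ) : ℝ))⁻¹) := by
    intro t htG
    have hfaith := crossLift_faithful L m σ t (Finset.mem_filter.mp htG).2 (g t) (hg1 t) (hg2 t)
    have h1 : HasLowerDensity (frobPrimes (CrossField L m) (g t))
        (Nat.card (Subgroup.centralizer
          ({g t} : Set (CrossField L m ≃ₐ[ℚ] CrossField L m))) : ℝ)⁻¹ :=
      hCyc (CrossField L m) m (crossZeta L m) hmp.pos (crossZeta_spec L m) (g t) hfaith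
    refine HasLowerDensity.mono_const (HasLowerDensity.diff_finset h1 B') ?_
    have hle := card_centralizer_crossLift_le L m σ (g t) (hg1 t)
    have hpos : (0 : ℝ) < (Nat.card (Subgroup.centralizer
        ({g t} : Set (CrossField L m ≃ₐ[ℚ] CrossField L m))) : ℝ) := by
      exact_mod_cast Nat.card_pos
    apply inv_anti₀ hpos
    rw [hc]
    exact_mod_cast hle
  -- disjointness
  have hdisj : ∀ t ∈ Good, ∀ t' ∈ Good, t ≠ t' →
      Disjoint (frobPrimes (CrossField L m) (g t) \ ↑B')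
        (frobPrimes (CrossField L m) (g t') \ ↑B') := by
    intro t _ t' _ htt'
    rw [Set.disjoint_left]
    intro p hp hp'
    have hpm : p ≠ m := by
      intro h
      apply hp.2
      rw [h, hB'def]
      exact Finset.mem_coe.mpr (Finset.mem_insert_self m B)
    have e1 := natCast_eq_of_mem_frobPrimes L m t (g t) (hg2 t) hp.1 hpm
    have e2 := natCast_eq_of_mem_frobPrimes L m t' (g t') (hg2 t') hp'.1 hpm
    exact htt' (Units.ext (e1.symm.trans e2))
  have hunion := hasLowerDensity_biUnion Good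
    (fun t => frobPrimes (CrossField L m) (g t) \ ↑B') (fun _ => (c * ((m - 1 : ℕ) : ℝ))⁻¹)
    hdisj ht
  -- the union restricts into `frobPrimes L σ`
  have hsub : (⋃ t ∈ Good, frobPrimes (CrossField L m) (g t) \ ↑B') ⊆ frobPrimes L σ := by
    intro p hp
    simp only [Set.mem_iUnion] at hp
    obtain ⟨t, -, hpt⟩ := hp
    have hpB : p ∉ B := by
      intro h
      apply hpt.2
      rw [hB'def]
      exact Finset.mem_coe.mpr (Finset.mem_insert_of_mem h)
    exact mem_frobPrimes_of_crossField L m σ (g t) (hg1 t) B hB' hpt.1 hpB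
  show HasLowerDensity (frobPrimes L σ) (c⁻¹ - δ)
  refine HasLowerDensity.mono_const (HasLowerDensity.mono_set hunion hsub) ?_
  -- the constants
  rw [Finset.sum_const, nsmul_eq_mul]
  have hcpos : 0 < c := by linarith
  have hmpos : (0 : ℝ) < ((m - 1 : ℕ) : ℝ) := by linarith
  have h1 : (1 - (n : ℝ) / 2 ^ k) * ((m - 1 : ℕ) : ℝ) * (c * ((m - 1 : ℕ) : ℝ))⁻¹ ≤
      (Good.card : ℝ) * (c * ((m - 1 : ℕ) : ℝ))⁻¹ :=
    mul_le_mul_of_nonneg_right hGoodcard (by positivity)
  have h2 : (1 - (n : ℝ) / 2 ^ k) * ((m - 1 : ℕ) : ℝ) * (c * ((m - 1 : ℕ) : ℝ))⁻¹ =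
      (1 - (n : ℝ) / 2 ^ k) * c⁻¹ := by
    field_simp
  have h3 : c⁻¹ - δ ≤ (1 - (n : ℝ) / 2 ^ k) * c⁻¹ := by
    have hcinv : c⁻¹ ≤ 1 := inv_le_one_of_one_le₀ hc1
    have hcinv0 : 0 ≤ c⁻¹ := by positivity
    have h4 : (n : ℝ) / 2 ^ k * c⁻¹ ≤ δ * 1 :=
      mul_le_mul hkδ hcinv hcinv0 hδ.le
    linarith
  linarith

end Fermat.Agent.Lib.ChebQ.H968
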