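import Mathlib
import Fermat.Agent.Lib.Cheb.SpecQ2
import Fermat.Agent.Lib.Cheb.H281.CycAlg
import Fermat.Agent.Lib.Cheb.H223.CycAlg
import Fermat.Agent.Lib.Cheb.H583.CycAlgBase

/-!
# CHEB-Q, piece Q-ALG (helper968): the orbit count `SpecQ.CycCountStatement`

Situation of `Spec.CycStatement`: `L/ℚ` Galois, `ζ ∈ L` a primitive `m`-th root of unity,
`g ∈ Gal(L/ℚ)` with `⟨g⟩` acting faithfully on `ζ`, `a = autToPow g`, `M = L^⟨g⟩`.
For a prime `p ∉ cycBad L m` with `p ≡ a mod m`: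

* `frob_of_mem_primesLe`: every prime `P ∣ p` of `L` with `D_P ≤ ⟨g⟩` has trivial inertia,
  arithmetic Frobenius `g` and `D_P = ⟨g⟩`;
* `primeCount_eq_card_primesLe`: `c_M(p) = #{P ∣ p : D_P ≤ ⟨g⟩}`;
* `card_primesLe_mul_le`: `#{P ∣ p : D_P ≤ ⟨g⟩} · |conj class of g| · ord g ≤ |G|`
  (injection `(P, h, z) ↦ k_h c_P z` into `G`);
* `cycCount : SpecQ.CycCountStatement`.
-/

set_option autoImplicit false
set_option linter.unusedSectionVars false

open NumberField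
open scoped Pointwise

namespace Fermat.Agent.Lib.ChebQ.H968

open Fermat.Agent.Lib.Cheb

section cyc

variable {L : Type} [Field L] [NumberField L] [IsGalois ℚ L] {m : ℕ} [NeZero m] {ζ : L}

/-- At a good prime `p ≡ a mod m`, every `P ∣ p` with `D_P ≤ ⟨g⟩` has Frobenius `g`. -/
theorem frob_of_mem_primesLe (hζ : IsPrimitiveRoot ζ m) (g : L ≃ₐ[ℚ] L)
    (hg : ∀ k : ℕ, (g ^ k) ζ = ζ → g ^ k = 1) {p : ℕ}
    (hp : p.Prime) (hpB : p ∉ H281.cycBad L m)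
    (hpa : (p : ZMod m) = ((hζ.autToPow ℚ g : (ZMod m)ˣ) : ZMod m))
    {P : Ideal (𝓞 L)} (hP : P ∈ Spec.primesLe L (Subgroup.zpowers g) p) :
    Spec.InertiaTrivial L P ∧ IsArithFrobAt ℤ g P ∧
      Spec.decomp L P = Subgroup.zpowers g := by
  obtain ⟨hI, τ, hτ, hD, hτg, hτζ⟩ := H281.exists_frob_of_mem_primesLe hζ g hp hpB hP
  have hgζ : g ζ = ζ ^ p := H281.apply_eq_of_autToPow_eq hζ g hpa.symm
  have : τ = g :=
    H281.eq_of_mem_zpowers g hg hτg (Subgroup.mem_zpowers g) (hτζ.trans hgζ.symm)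
  subst this
  exact ⟨hI, hτ, hD⟩

/-- `c_M(p) = #{P ∣ p : D_P ≤ ⟨g⟩}` at a good prime `p ≡ a mod m`. -/
theorem primeCount_eq_card_primesLe (hζ : IsPrimitiveRoot ζ m) (g : L ≃ₐ[ℚ] L)
    (hg : ∀ k : ℕ, (g ^ k) ζ = ζ → g ^ k = 1) {p : ℕ}
    (hp : p.Prime) (hpB : p ∉ H281.cycBad L m)
    (hpa : (p : ZMod m) = ((hζ.autToPow ℚ g : (ZMod m)ˣ) : ZMod m)) :
    Spec.primeCount (IntermediateField.fixedField (Subgroup.zpowers g)) p =
      Nat.card (Spec.primesLe L (Subgroup.zpowers g) p) := by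
  have hunr := H281.hunr_of_notMem_cycBad (L := L) (m := m) hp hpB
  have h2 := H281.count_of_unramified (Subgroup.zpowers g) hp hunr
  rw [Nat.card_zpowers] at h2
  have hfin : Finite (Spec.primesLe L (Subgroup.zpowers g) p) :=
    (H223.finite_primesLe (Subgroup.zpowers g) hp).to_subtype
  have h3 : Spec.decompWeight L (Subgroup.zpowers g) p =
      Nat.card (Spec.primesLe L (Subgroup.zpowers g) p) * orderOf g := by
    unfold Spec.decompWeight
    have hc : ∀ P : Spec.primesLe L (Subgroup.zpowers g) p,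
        Nat.card (Spec.decomp L P.1) = orderOf g := by
      intro P
      rw [(frob_of_mem_primesLe hζ g hg hp hpB hpa P.2).2.2, Nat.card_zpowers]
    rw [finsum_congr hc]
    cases nonempty_fintype (Spec.primesLe L (Subgroup.zpowers g) p)
    rw [finsum_eq_sum_of_fintype, Finset.sum_const, smul_eq_mul, Finset.card_univ,
      Nat.card_eq_fintype_card]
  rw [h3] at h2
  have hpos : 0 < orderOf g := orderOf_pos g
  exact Nat.eq_of_mul_eq_mul_right hpos h2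

/-- The orbit count: `#{P ∣ p : D_P ≤ ⟨g⟩} · ord g · |conj class of g| ≤ |G|`. -/
theorem card_primesLe_mul_le (hζ : IsPrimitiveRoot ζ m) (g : L ≃ₐ[ℚ] L)
    (hg : ∀ k : ℕ, (g ^ k) ζ = ζ → g ^ k = 1) {p : ℕ}
    (hp : p.Prime) (hpB : p ∉ H281.cycBad L m)
    (hpa : (p : ZMod m) = ((hζ.autToPow ℚ g : (ZMod m)ˣ) : ZMod m)) :
    Nat.card (Spec.primesLe L (Subgroup.zpowers g) p) * orderOf g *
      Nat.card (conjugatesOf g) ≤ Nat.card (L ≃ₐ[ℚ] L) := by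
  classical
  rcases isEmpty_or_nonempty (Spec.primesLe L (Subgroup.zpowers g) p) with he | ⟨⟨P₀, hP₀⟩⟩
  · rw [Nat.card_of_isEmpty, zero_mul, zero_mul]
    exact Nat.zero_le _
  obtain ⟨hI₀, hF₀, hD₀⟩ := frob_of_mem_primesLe hζ g hg hp hpB hpa hP₀
  have hP₀prime : P₀.IsPrime := hP₀.1
  -- transitivity, with the Frobenius preserved
  have hex : ∀ P : Spec.primesLe L (Subgroup.zpowers g) p,
      ∃ c : L ≃ₐ[ℚ] L, c • P₀ = P.1 ∧ c * g * c⁻¹ = g := by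
    rintro ⟨P, hP⟩
    obtain ⟨hI, hF, -⟩ := frob_of_mem_primesLe hζ g hg hp hpB hpa hP
    have hPprime : P.IsPrime := hP.1
    have hu : P₀.under ℤ = P.under ℤ := by
      rw [H281.under_int_eq_span hp hP₀.2.1, H281.under_int_eq_span hp hP.2.1]
    obtain ⟨c, hc⟩ := Algebra.IsInvariant.exists_smul_of_under_eq ℤ (𝓞 L) (L ≃ₐ[ℚ] L) P₀ P hu
    refine ⟨c, hc.symm, ?_⟩
    have h1 : IsArithFrobAt ℤ (c * g * c⁻¹) P := by
      have := hF₀.conj c
      rwa [← hc] at this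
    exact H583.frob_unique hI h1 hF
  choose c hc1 hc2 using hex
  have hexk : ∀ h : conjugatesOf g, ∃ k : L ≃ₐ[ℚ] L, k * g * k⁻¹ = h.1 :=
    fun h => isConj_iff.mp h.2
  choose k hk using hexk
  let Φ : Spec.primesLe L (Subgroup.zpowers g) p × conjugatesOf g × Subgroup.zpowers g →
      (L ≃ₐ[ℚ] L) := fun x => k x.2.1 * c x.1 * (x.2.2 : L ≃ₐ[ℚ] L)
  have hcomm : ∀ z : Subgroup.zpowers g, (z : L ≃ₐ[ℚ] L) * g * (z : L ≃ₐ[ℚ] L)⁻¹ = g := by
    intro z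
    obtain ⟨j, hj⟩ := Subgroup.mem_zpowers_iff.mp z.2
    rw [← hj, mul_inv_eq_iff_eq_mul]
    exact (Commute.zpow_left (Commute.refl g) j).eq
  have hconj : ∀ x, Φ x * g * (Φ x)⁻¹ = (x.2.1 : L ≃ₐ[ℚ] L) := by
    intro x
    have e : Φ x * g * (Φ x)⁻¹ =
        k x.2.1 * (c x.1 * ((x.2.2 : L ≃ₐ[ℚ] L) * g * (x.2.2 : L ≃ₐ[ℚ] L)⁻¹) * (c x.1)⁻¹) *
          (k x.2.1)⁻¹ := by
      simp only [Φ, mul_inv_rev, mul_assoc]
    rw [e, hcomm, hc2, hk]
  have hstab : ∀ z : Subgroup.zpowers g, (z : L ≃ₐ[ℚ] L) • P₀ = P₀ := by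
    intro z
    have hz : (z : L ≃ₐ[ℚ] L) ∈ Spec.decomp L P₀ := by rw [hD₀]; exact z.2
    exact MulAction.mem_stabilizer_iff.mp hz
  have hΦ : Function.Injective Φ := by
    rintro ⟨P, h, z⟩ ⟨P', h', z'⟩ hxy
    have e1 : h = h' := by
      apply Subtype.ext
      rw [← hconj ⟨P, h, z⟩, ← hconj ⟨P', h', z'⟩, hxy]
    subst e1
    have e2 : c P * (z : L ≃ₐ[ℚ] L) = c P' * (z' : L ≃ₐ[ℚ] L) := by
      have : k h * (c P * (z : L ≃ₐ[ℚ] L)) = k h * (c P' * (z' : L ≃ₐ[ℚ] L)) := by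
        simpa only [Φ, mul_assoc] using hxy
      exact mul_left_cancel this
    have e3 : P = P' := by
      apply Subtype.ext
      rw [← hc1 P, ← hc1 P', ← hstab z, ← mul_smul, e2, mul_smul, hstab z', hstab z]
    subst e3
    have e4 : z = z' := Subtype.ext (mul_left_cancel e2)
    subst e4
    rfl
  have hcard := Nat.card_le_card_of_injective Φ hΦ
  rw [Nat.card_prod, Nat.card_prod, Nat.card_zpowers] at hcard
  calc Nat.card (Spec.primesLe L (Subgroup.zpowers g) p) * orderOf g *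
        Nat.card (conjugatesOf g)
      = Nat.card (Spec.primesLe L (Subgroup.zpowers g) p) *
          (Nat.card (conjugatesOf g) * orderOf g) := by ring
    _ ≤ Nat.card (L ≃ₐ[ℚ] L) := hcard

/-- **Q-ALG**: `SpecQ.CycCountStatement`. -/
theorem cycCount : SpecQ.CycCountStatement := by
  intro L _ _ _ m _ ζ hζ g hg
  refine ⟨H281.cycBad L m, fun p hp hpB hpa hc => ⟨?_, ?_⟩⟩
  · obtain ⟨P, hP1, hP2, hP3, hP4⟩ := H281.cyc_fin hζ g hg hp hpB hc hpa
    exact ⟨hp, P, hP1, hP2, hP3, hP4⟩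
  · rw [primeCount_eq_card_primesLe hζ g hg hp hpB hpa]
    exact card_primesLe_mul_le hζ g hg hp hpB hpa

end cyc

end Fermat.Agent.Lib.ChebQ.H968
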