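import Fermat.Agent.Lib.ChebQ.H968.CycDensity
import Fermat.Agent.Lib.ChebQ.H968.CycCount
import Fermat.Agent.Lib.ChebQ.H968.Cross
import Fermat.Agent.Lib.Cheb.H56.QSum
import Fermat.Agent.Lib.Cheb.H943.Frob
import Fermat.Agent.Lib.Cheb.DensityBasic

/-!
# CHEB-Q (helper968): the finite-level Chebotarev density theorem, UNCONDITIONAL

* `cycDensityQ : ChebQ.Spec.CycDensityStatement` (cyclotomic case, `O(1)`-form);
* `chebDensityQ : ChebQ.Spec.ChebDensityStatement` (every class, density `≥ 1/|C_G(σ)| - δ`,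
  `O(1)`-form), by the field crossing `ChebQ.H968.crossDensity`;
* `chebDensityFinite : SpecQ.ChebDensityFiniteStatement` (the same in the `ε`-form of
  `Lib/Cheb/SpecQ.lean`, density `|conj class| / |G|`);
* `crossDensityQ : SpecQ.CrossDensityStatement` (piece Q-CROSS of `coord/CHEB-Q.md`).
-/

set_option autoImplicit false

open NumberField

namespace Fermat.Agent.Lib.ChebQ.H968

open Fermat.Agent.Lib.Cheb

/-- The cyclotomic case, `O(1)`-form, unconditional. -/
theorem cycDensityQ : Spec.CycDensityStatement :=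
  cycDensity_of H56.cycSum cycCount

/-- Finite-level Chebotarev density theorem (lower bound), `O(1)`-form, unconditional. -/
theorem chebDensityQ : Spec.ChebDensityStatement :=
  crossDensity H943.frobStatement cycDensityQ

/-- Adapter from the `O(1)`-form (`ChebQ.Spec`) to the `ε`-form (`Cheb.SpecQ`). -/
theorem chebDensityFinite_of (h : Spec.ChebDensityStatement) :
    SpecQ.ChebDensityFiniteStatement := by
  intro L _ _ _ g
  apply SpecQ.hasLowerDensity_of_forall_lt
  intro d' hd'
  have hclass := card_conjugatesOf_mul_card_centralizer g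
  have hzpos : 0 < Nat.card (Subgroup.centralizer ({g} : Set (L ≃ₐ[ℚ] L))) := Nat.card_pos
  have hcgpos : 0 < Nat.card (conjugatesOf g) := by
    have : Nonempty (conjugatesOf g) := ⟨⟨g, mem_conjugatesOf_self⟩⟩
    exact Nat.card_pos
  have hzR : (0 : ℝ) < (Nat.card (Subgroup.centralizer ({g} : Set (L ≃ₐ[ℚ] L))) : ℝ) := by
    exact_mod_cast hzpos
  have hcgR : (0 : ℝ) < (Nat.card (conjugatesOf g) : ℝ) := by exact_mod_cast hcgpos
  have hcd : SpecQ.classDensity L g =
      (Nat.card (Subgroup.centralizer ({g} : Set (L ≃ₐ[ℚ] L))) : ℝ)⁻¹ := by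
    unfold SpecQ.classDensity
    rw [← hclass]
    push_cast
    field_simp
  obtain ⟨K, hK⟩ := h L g (SpecQ.classDensity L g - d') (by linarith)
  apply SpecQ.hasLowerDensity_of_bound (K := K)
  intro s h1 h2
  obtain ⟨T, hT, hsum⟩ := hK s h1 h2
  refine ⟨T, fun p hp => hT (Finset.mem_coe.mpr hp), ?_⟩
  have e : (Nat.card (Subgroup.centralizer ({g} : Set (L ≃ₐ[ℚ] L))) : ℝ)⁻¹ -
      (SpecQ.classDensity L g - d') = d' := by
    rw [hcd]; ring
  rw [e] at hsum
  exact hsum

/-- **Finite-level Chebotarev density theorem**, `ε`-form of `Lib/Cheb/SpecQ.lean`,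
unconditional. -/
theorem chebDensityFinite : SpecQ.ChebDensityFiniteStatement :=
  chebDensityFinite_of chebDensityQ

/-- **Q-CROSS** (in the frozen shape of `Lib/Cheb/SpecQ.lean`). -/
theorem crossDensityQ : SpecQ.CrossDensityStatement :=
  fun _ => chebDensityFinite

end Fermat.Agent.Lib.ChebQ.H968
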