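import Mathlib

/-!
# CHEB-Q / CROSS-Q, combinatorial part (helper968)

In a finite cyclic group `U` whose order is divisible by `n ^ k` (`k ≥ 1`), all but a proportion
`≤ n / 2 ^ k` of the elements have order divisible by `n`.
-/

set_option autoImplicit false

namespace Fermat.Agent.Lib.ChebQ.H968

/-- If `d ∣ N`, `n ^ k ∣ N`, `1 ≤ k` and `¬ n ∣ d`, then some prime `q ∣ n` has `d ∣ N / q ^ k`. -/
theorem exists_prime_dvd_div_pow {d N n k : ℕ} (hN : N ≠ 0) (hk : 1 ≤ k) (hdN : d ∣ N)
    (hnN : n ^ k ∣ N) (hnd : ¬ n ∣ d) :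
    ∃ q : ℕ, q.Prime ∧ q ∣ n ∧ q ^ k ∣ N ∧ d ∣ N / q ^ k := by
  have hd0 : d ≠ 0 := fun h => hN (by simpa [h] using hdN)
  have hn0 : n ≠ 0 := by
    rintro rfl
    rw [zero_pow (by omega)] at hnN
    exact hN (zero_dvd_iff.mp hnN)
  -- a prime `q` with `v_q(d) < v_q(n)`
  obtain ⟨q, hq⟩ : ∃ q, d.factorization q < n.factorization q := by
    by_contra hcon
    apply hnd
    rw [← Nat.factorization_le_iff_dvd hn0 hd0]
    intro q
    exact not_lt.mp (fun h => hcon ⟨q, h⟩)
  have hqp : q.Prime := by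
    by_contra hnp
    rw [Nat.factorization_eq_zero_of_not_prime n hnp] at hq
    exact absurd hq (Nat.not_lt_zero _)
  have hqn : q ∣ n := by
    have : 0 < n.factorization q := lt_of_le_of_lt (Nat.zero_le _) hq
    exact Nat.dvd_of_factorization_pos (by omega)
  have hqk : q ^ k ∣ N := (pow_dvd_pow_of_dvd hqn k).trans hnN
  refine ⟨q, hqp, hqn, hqk, ?_⟩
  have hdiv0 : N / q ^ k ≠ 0 := by
    intro h
    have hpos : 0 < q ^ k := pow_pos hqp.pos k
    have := Nat.div_mul_cancel hqk
    rw [h, zero_mul] at this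
    exact hN this.symm
  rw [← Nat.factorization_le_iff_dvd hd0 hdiv0]
  intro r
  rw [Nat.factorization_div hqk]
  simp only [Finsupp.coe_tsub, Pi.sub_apply]
  have hdr : d.factorization r ≤ N.factorization r :=
    (Nat.factorization_le_iff_dvd hd0 hN).mpr hdN r
  by_cases hrq : r = q
  · subst hrq
    have h1 : (n ^ k).factorization r ≤ N.factorization r :=
      (Nat.factorization_le_iff_dvd (pow_ne_zero k hn0) hN).mpr hnN r
    rw [Nat.factorization_pow] at h1
    simp only [Finsupp.coe_smul, Pi.smul_apply, smul_eq_mul] at h1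
    rw [Nat.Prime.factorization_pow hqp]
    simp only [Finsupp.single_eq_same]
    -- v(d) + 1 ≤ v(n), k * v(n) ≤ v(N)
    have h2 : k * (d.factorization r + 1) ≤ N.factorization r :=
      le_trans (Nat.mul_le_mul_left k hq) h1
    have h3 : d.factorization r + k ≤ k * (d.factorization r + 1) := by
      have : d.factorization r ≤ k * d.factorization r := Nat.le_mul_of_pos_left _ (by omega)
      linarith [Nat.mul_add k (d.factorization r) 1]
    omega
  · rw [Nat.Prime.factorization_pow hqp]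
    simp only [Finsupp.single_apply]
    rw [if_neg (fun h => hrq h.symm)]
    simpa using hdr

variable {U : Type*} [Group U] [Fintype U] [DecidableEq U]

/-- In a finite cyclic group of order divisible by `n ^ k`, `k ≥ 1`, the number of elements whose
order is not divisible by `n` is at most `n * (|U| / 2 ^ k)`. -/
theorem card_filter_not_dvd_orderOf_le [IsCyclic U] {n k : ℕ} (hk : 1 ≤ k)
    (hnN : n ^ k ∣ Fintype.card U) :
    (Finset.univ.filter (fun t : U => ¬ n ∣ orderOf t)).card ≤ n * (Fintype.card U / 2 ^ k) := by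
  classical
  set N := Fintype.card U with hNdef
  have hN : N ≠ 0 := Fintype.card_ne_zero
  by_cases hn0 : n = 0
  · subst hn0
    rw [zero_pow (by omega)] at hnN
    exact absurd (zero_dvd_iff.mp hnN) hN
  -- the bad set is covered by the sets `{t | t ^ (N / q ^ k) = 1}`, `q ∈ n.primeFactors`
  have hcover : Finset.univ.filter (fun t : U => ¬ n ∣ orderOf t) ⊆
      n.primeFactors.biUnion (fun q => Finset.univ.filter (fun t : U => t ^ (N / q ^ k) = 1)) := by
    intro t ht
    rw [Finset.mem_filter] at ht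
    obtain ⟨q, hqp, hqn, -, hd⟩ :=
      exists_prime_dvd_div_pow hN hk (orderOf_dvd_card (x := t)) hnN ht.2
    rw [Finset.mem_biUnion]
    refine ⟨q, Nat.mem_primeFactors.mpr ⟨hqp, hqn, hn0⟩, ?_⟩
    rw [Finset.mem_filter]
    exact ⟨Finset.mem_univ _, orderOf_dvd_iff_pow_eq_one.mp hd⟩
  refine (Finset.card_le_card hcover).trans (Finset.card_biUnion_le.trans ?_)
  have hle : ∀ q ∈ n.primeFactors,
      (Finset.univ.filter (fun t : U => t ^ (N / q ^ k) = 1)).card ≤ N / 2 ^ k := by
    intro q hq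
    have hqp : q.Prime := (Nat.mem_primeFactors.mp hq).1
    have hqn : q ∣ n := (Nat.mem_primeFactors.mp hq).2.1
    have hqk : q ^ k ∣ N := (pow_dvd_pow_of_dvd hqn k).trans hnN
    have hpos : 0 < N / q ^ k :=
      Nat.div_pos (Nat.le_of_dvd (Nat.pos_of_ne_zero hN) hqk) (pow_pos hqp.pos k)
    refine (IsCyclic.card_pow_eq_one_le hpos).trans ?_
    exact Nat.div_le_div_left (Nat.pow_le_pow_left hqp.two_le k) (pow_pos (by norm_num) k)
  calc ∑ q ∈ n.primeFactors, (Finset.univ.filter (fun t : U => t ^ (N / q ^ k) = 1)).card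
      ≤ ∑ _q ∈ n.primeFactors, N / 2 ^ k := Finset.sum_le_sum hle
    _ = n.primeFactors.card * (N / 2 ^ k) := by rw [Finset.sum_const, smul_eq_mul]
    _ ≤ n * (N / 2 ^ k) := by
        apply Nat.mul_le_mul_right
        calc n.primeFactors.card ≤ (Finset.Icc 1 n).card := by
              apply Finset.card_le_card
              intro q hq
              have hqp : q.Prime := (Nat.mem_primeFactors.mp hq).1
              have hqn : q ∣ n := (Nat.mem_primeFactors.mp hq).2.1
              exact Finset.mem_Icc.mpr ⟨hqp.one_lt.le, Nat.le_of_dvd (Nat.pos_of_ne_zero hn0) hqn⟩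
          _ = n := by simp

/-- Real form: the good elements (order divisible by `n`) are at least `(1 - n / 2 ^ k) |U|`. -/
theorem card_filter_dvd_orderOf_ge [IsCyclic U] {n k : ℕ} (hk : 1 ≤ k)
    (hnN : n ^ k ∣ Fintype.card U) :
    (1 - (n : ℝ) / 2 ^ k) * (Fintype.card U : ℝ) ≤
      ((Finset.univ.filter (fun t : U => n ∣ orderOf t)).card : ℝ) := by
  classical
  have h1 := card_filter_not_dvd_orderOf_le (U := U) hk hnN
  have h2 : (Finset.univ.filter (fun t : U => n ∣ orderOf t)).card +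
      (Finset.univ.filter (fun t : U => ¬ n ∣ orderOf t)).card = Fintype.card U := by
    rw [Finset.card_filter_add_card_filter_not, Finset.card_univ]
  have h3 : ((Fintype.card U / 2 ^ k : ℕ) : ℝ) ≤ (Fintype.card U : ℝ) / 2 ^ k := by
    rw [le_div_iff₀ (by positivity)]
    have := Nat.div_mul_le_self (Fintype.card U) (2 ^ k)
    exact_mod_cast this
  have h4 : ((Finset.univ.filter (fun t : U => ¬ n ∣ orderOf t)).card : ℝ) ≤
      (n : ℝ) * ((Fintype.card U : ℝ) / 2 ^ k) := by
    calc ((Finset.univ.filter (fun t : U => ¬ n ∣ orderOf t)).card : ℝ)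
        ≤ ((n * (Fintype.card U / 2 ^ k) : ℕ) : ℝ) := by exact_mod_cast h1
      _ = (n : ℝ) * ((Fintype.card U / 2 ^ k : ℕ) : ℝ) := by push_cast; ring
      _ ≤ (n : ℝ) * ((Fintype.card U : ℝ) / 2 ^ k) := by gcongr
  have h5 : ((Finset.univ.filter (fun t : U => n ∣ orderOf t)).card : ℝ) +
      ((Finset.univ.filter (fun t : U => ¬ n ∣ orderOf t)).card : ℝ) = (Fintype.card U : ℝ) := by
    exact_mod_cast h2
  have h6 : (1 - (n : ℝ) / 2 ^ k) * (Fintype.card U : ℝ) =
      (Fintype.card U : ℝ) - (n : ℝ) * ((Fintype.card U : ℝ) / 2 ^ k) := by ring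
  rw [h6]
  linarith

/-- choice of `k`: `n / 2 ^ k ≤ δ` for some `k ≥ 1`. -/
theorem exists_pow_two_ge (n : ℕ) {δ : ℝ} (hδ : 0 < δ) : ∃ k : ℕ, 1 ≤ k ∧ (n : ℝ) / 2 ^ k ≤ δ := by
  obtain ⟨k, hk⟩ := pow_unbounded_of_one_lt ((n : ℝ) / δ) (by norm_num : (1 : ℝ) < 2)
  refine ⟨k + 1, by omega, ?_⟩
  rw [div_le_iff₀ (by positivity)]
  have h1 : (n : ℝ) < δ * 2 ^ k := by
    rw [div_lt_iff₀ hδ] at hk
    linarith
  have h2 : (2 : ℝ) ^ k ≤ 2 ^ (k + 1) := by
    rw [pow_succ]
    have : (0 : ℝ) < 2 ^ k := by positivity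
    linarith
  nlinarith

end Fermat.Agent.Lib.ChebQ.H968
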