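import Mathlib
import Fermat.Agent.Lib.Cheb.SpecQ2
import Fermat.Agent.Lib.ChebQ.Spec
import Fermat.Agent.Lib.ChebQ.H968.Density

/-!
# CHEB-Q (helper968): the cyclotomic case in `O(1)`-form, and the class equation

* `card_conjugatesOf_mul_card_centralizer`: `|conj class of g| · |C_G(g)| = |G|`;
* `hasLowerDensity_of_tsum_bound`: a weighted `tsum` lower bound gives a lower density in the
  `O(1)`-form `ChebQ.Spec.HasLowerDensity`;
* `cycDensity_of : SpecQ.CycSumStatement → SpecQ.CycCountStatement → ChebQ.Spec.CycDensityStatement`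
  (the glue Q-CYC of `H993.QCyc`, keeping the `O(1)` error term, as needed by
  `ChebQ.H968.crossDensity`).
-/

set_option autoImplicit false

open NumberField

namespace Fermat.Agent.Lib.ChebQ.H968

open Fermat.Agent.Lib.Cheb Fermat.Agent.Lib.ChebQ.Spec

/-- The class equation for one class: `|conj class of g| · |C_G(g)| = |G|`. -/
theorem card_conjugatesOf_mul_card_centralizer {G : Type*} [Group G] [Finite G] (g : G) :
    Nat.card (conjugatesOf g) * Nat.card (Subgroup.centralizer ({g} : Set G)) = Nat.card G := by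
  classical
  have hexk : ∀ h : conjugatesOf g, ∃ k : G, k * g * k⁻¹ = h.1 := fun h => isConj_iff.mp h.2
  choose k hk using hexk
  let Φ : conjugatesOf g × Subgroup.centralizer ({g} : Set G) → G :=
    fun x => k x.1 * (x.2 : G)
  have hcomm : ∀ c : Subgroup.centralizer ({g} : Set G), (c : G) * g * (c : G)⁻¹ = g := by
    intro c
    have h := Subgroup.mem_centralizer_singleton_iff.mp c.2
    rw [mul_inv_eq_iff_eq_mul]
    exact h
  have hconj : ∀ x, Φ x * g * (Φ x)⁻¹ = (x.1 : G) := by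
    intro x
    have e : Φ x * g * (Φ x)⁻¹ = k x.1 * ((x.2 : G) * g * (x.2 : G)⁻¹) * (k x.1)⁻¹ := by
      simp only [Φ, mul_inv_rev, mul_assoc]
    rw [e, hcomm, hk]
  have hinj : Function.Injective Φ := by
    rintro ⟨h, c⟩ ⟨h', c'⟩ hxy
    have e1 : h = h' := by
      apply Subtype.ext
      rw [← hconj ⟨h, c⟩, ← hconj ⟨h', c'⟩, hxy]
    subst e1
    have e2 : c = c' := Subtype.ext (mul_left_cancel (a := k h) hxy)
    subst e2
    rfl
  have hsurj : Function.Surjective Φ := by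
    intro x
    have hx : x * g * x⁻¹ ∈ conjugatesOf g := isConj_iff.mpr ⟨x, rfl⟩
    set h : conjugatesOf g := ⟨x * g * x⁻¹, hx⟩ with hh
    have hc : (k h)⁻¹ * x ∈ Subgroup.centralizer ({g} : Set G) := by
      rw [Subgroup.mem_centralizer_singleton_iff]
      have h1 : k h * g * (k h)⁻¹ = x * g * x⁻¹ := hk h
      have h2 : g * ((k h)⁻¹ * x) = (k h)⁻¹ * (k h * g * (k h)⁻¹) * x := by group
      rw [h2, h1]
      group
    refine ⟨⟨h, ⟨(k h)⁻¹ * x, hc⟩⟩, ?_⟩
    simp only [Φ]
    group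
  rw [← Nat.card_prod]
  exact Nat.card_eq_of_bijective Φ ⟨hinj, hsurj⟩

/-- From a weighted `tsum` lower bound: if `f s p ≤ w * p^(-s)`, `f s p ≤ 0` off `X` and
`∑' f s ≥ d' log (1/(s-1)) - K`, then `X` has lower density at least `d' / w` (`O(1)`-form). -/
theorem hasLowerDensity_of_tsum_bound {X : Set ℕ} {d' w K : ℝ} (hw : 0 < w)
    (f : ℝ → Nat.Primes → ℝ)
    (hsum : ∀ s : ℝ, 1 < s → s ≤ 2 → Summable (f s))
    (hle : ∀ s : ℝ, 1 < s → s ≤ 2 → ∀ p : Nat.Primes, f s p ≤ w * ((p : ℕ) : ℝ) ^ (-s))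
    (hX : ∀ s : ℝ, 1 < s → s ≤ 2 → ∀ p : Nat.Primes, (p : ℕ) ∉ X → f s p ≤ 0)
    (hbound : ∀ s : ℝ, 1 < s → s ≤ 2 → d' * Real.log (1 / (s - 1)) - K ≤ ∑' p, f s p) :
    HasLowerDensity X (d' / w) := by
  classical
  refine ⟨(K + 1) / w, fun s h1 h2 => ?_⟩
  have hS := (hsum s h1 h2).hasSum
  have hev := hS.eventually (lt_mem_nhds (show ∑' p, f s p - 1 < ∑' p, f s p by linarith))
  obtain ⟨F, hF⟩ := hev.exists
  set F' : Finset Nat.Primes := F.filter (fun p => (p : ℕ) ∈ X) with hF'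
  have h3 : ∑ p ∈ F, f s p ≤ ∑ p ∈ F', f s p := by
    rw [hF', Finset.sum_filter]
    apply Finset.sum_le_sum
    intro p _
    split_ifs with hp
    · exact le_rfl
    · exact hX s h1 h2 p hp
  have h4 : ∑ p ∈ F', f s p ≤ w * ∑ p ∈ F', ((p : ℕ) : ℝ) ^ (-s) := by
    rw [Finset.mul_sum]
    exact Finset.sum_le_sum fun p _ => hle s h1 h2 p
  refine ⟨F'.image (fun p : Nat.Primes => (p : ℕ)), fun p hp => ?_, ?_⟩
  · obtain ⟨q, hq, rfl⟩ := Finset.mem_image.mp (Finset.mem_coe.mp hp)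
    rw [hF', Finset.mem_filter] at hq
    exact hq.2
  · have himg : ∑ p ∈ F'.image (fun p : Nat.Primes => (p : ℕ)), (p : ℝ) ^ (-s) =
        ∑ p ∈ F', ((p : ℕ) : ℝ) ^ (-s) :=
      Finset.sum_image (f := fun n : ℕ => (n : ℝ) ^ (-s)) (g := fun p : Nat.Primes => (p : ℕ))
        (fun a _ b _ hab => Nat.Primes.coe_nat_injective hab)
    rw [himg]
    have h5 := hbound s h1 h2
    have h6 : d' * Real.log (1 / (s - 1)) - (K + 1) ≤ w * ∑ p ∈ F', ((p : ℕ) : ℝ) ^ (-s) := by
      linarith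
    have h7 : d' / w * Real.log (1 / (s - 1)) - (K + 1) / w =
        (d' * Real.log (1 / (s - 1)) - (K + 1)) / w := by ring
    rw [h7, div_le_iff₀ hw]
    linarith

/-- A function on the primes vanishing off a finite set is summable. -/
theorem summable_of_finset_support_h968 {f : Nat.Primes → ℝ} (B : Finset ℕ)
    (h : ∀ p : Nat.Primes, (p : ℕ) ∉ B → f p = 0) : Summable f := by
  apply summable_of_hasFiniteSupport
  have hfin : {p : Nat.Primes | (p : ℕ) ∈ B}.Finite :=
    Set.Finite.preimage (Nat.Primes.coe_nat_injective.injOn) B.finite_toSet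
  refine hfin.subset ?_
  intro p hp
  by_contra hpB
  exact hp (h p hpB)

/-- **CYC-Q** in `O(1)`-form, from Q-SUM and Q-ALG. -/
theorem cycDensity_of (hSum : SpecQ.CycSumStatement) (hCount : SpecQ.CycCountStatement) :
    CycDensityStatement := by
  classical
  intro L _ _ _ m ζ hm hζ g hfaith
  have : NeZero m := ⟨hm.ne'⟩
  obtain ⟨C, hC⟩ := hSum L m ζ hζ g hfaith
  obtain ⟨B, hB⟩ := hCount L m ζ hζ g hfaith
  set a : ZMod m := ((hζ.autToPow ℚ g : (ZMod m)ˣ) : ZMod m) with ha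
  set c : ℕ → ℕ := fun p =>
    Spec.primeCount (IntermediateField.fixedField (Subgroup.zpowers g)) p with hc
  set n : ℕ := orderOf g with hn
  set cg : ℕ := Nat.card (conjugatesOf g) with hcg
  set z : ℕ := Nat.card (Subgroup.centralizer ({g} : Set (L ≃ₐ[ℚ] L))) with hz
  set G : ℕ := Nat.card (L ≃ₐ[ℚ] L) with hG
  have hclass : cg * z = G := card_conjugatesOf_mul_card_centralizer g
  have hnpos : 0 < n := orderOf_pos g
  have hcgpos : 0 < cg := by
    have : Nonempty (conjugatesOf g) := ⟨⟨g, mem_conjugatesOf_self⟩⟩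
    exact Nat.card_pos
  have hzpos : 0 < z := Nat.card_pos
  have hnR : (0 : ℝ) < n := by exact_mod_cast hnpos
  have hcgR : (0 : ℝ) < cg := by exact_mod_cast hcgpos
  have hzR : (0 : ℝ) < z := by exact_mod_cast hzpos
  -- the weight
  set w : ℝ := (z : ℝ) / (n : ℝ) with hw
  have hwpos : 0 < w := div_pos hzR hnR
  set f : ℝ → Nat.Primes → ℝ := fun s p =>
    if ((p : ℕ) : ZMod m) = a ∧ (p : ℕ) ∉ B then (c p : ℝ) * ((p : ℕ) : ℝ) ^ (-s) else 0 with hf
  set g₀ : ℝ → Nat.Primes → ℝ := fun s p =>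
    if ((p : ℕ) : ZMod m) = a then (c p : ℝ) * ((p : ℕ) : ℝ) ^ (-s) else 0 with hg₀
  set h₀ : Nat.Primes → ℝ := fun p => if (p : ℕ) ∈ B then (c p : ℝ) else 0 with hh₀
  have hterm_nonneg : ∀ (s : ℝ) (p : Nat.Primes), 0 ≤ (c p : ℝ) * ((p : ℕ) : ℝ) ^ (-s) :=
    fun s p => mul_nonneg (Nat.cast_nonneg _) (natCast_rpow_neg_nonneg _ _)
  have hh₀sum : Summable h₀ := by
    apply summable_of_finset_support_h968 B
    intro p hp
    simp only [hh₀, if_neg hp]
  have hfsum : ∀ s : ℝ, 1 < s → s ≤ 2 → Summable (f s) := by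
    intro s h1 h2
    refine Summable.of_nonneg_of_le (fun p => ?_) (fun p => ?_) (hC s h1 h2).1
    · simp only [hf]
      split_ifs
      · exact hterm_nonneg s p
      · exact le_rfl
    · simp only [hf]
      split_ifs
      · exact le_rfl
      · exact hterm_nonneg s p
  have hg₀sum : ∀ s : ℝ, 1 < s → s ≤ 2 → Summable (g₀ s) := by
    intro s h1 h2
    refine Summable.of_nonneg_of_le (fun p => ?_) (fun p => ?_) (hC s h1 h2).1
    · simp only [hg₀]
      split_ifs
      · exact hterm_nonneg s p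
      · exact le_rfl
    · simp only [hg₀]
      split_ifs
      · exact le_rfl
      · exact hterm_nonneg s p
  have hdens : (n : ℝ)⁻¹ / w = (z : ℝ)⁻¹ := by
    rw [hw]
    field_simp
  have hfrob : frobPrimes L g = SpecQ.frobPrimes L g := rfl
  rw [← hdens]
  refine hasLowerDensity_of_tsum_bound (X := frobPrimes L g) (d' := (n : ℝ)⁻¹) (w := w)
    (K := C + ∑' p, h₀ p) hwpos f hfsum ?_ ?_ ?_
  · -- `f s p ≤ w * p^(-s)`
    intro s h1 h2 p
    simp only [hf]
    split_ifs with hcond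
    · by_cases hcp : c p = 0
      · rw [hcp, Nat.cast_zero, zero_mul]
        exact mul_nonneg hwpos.le (natCast_rpow_neg_nonneg _ _)
      · have h3 := (hB p p.2 hcond.2 hcond.1 hcp).2
        have h3' : c p * n * cg ≤ cg * z := by rw [hclass]; exact h3
        have h3'' : c p * n ≤ z := by
          have : cg * (c p * n) ≤ cg * z := by
            calc cg * (c p * n) = c p * n * cg := by ring
              _ ≤ cg * z := h3'
          exact Nat.le_of_mul_le_mul_left this hcgpos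
        have h4 : (c p : ℝ) * (n : ℝ) ≤ (z : ℝ) := by exact_mod_cast h3''
        have h5 : (c p : ℝ) ≤ w := by
          rw [hw, le_div_iff₀ hnR]
          exact h4
        exact mul_le_mul_of_nonneg_right h5 (natCast_rpow_neg_nonneg _ _)
    · exact mul_nonneg hwpos.le (natCast_rpow_neg_nonneg _ _)
  · -- `f` vanishes off `frobPrimes`
    intro s h1 h2 p hp
    simp only [hf]
    split_ifs with hcond
    · by_cases hcp : c p = 0
      · rw [hcp, Nat.cast_zero, zero_mul]
      · exact absurd (hfrob ▸ (hB p p.2 hcond.2 hcond.1 hcp).1) hp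
    · exact le_rfl
  · -- the lower bound
    intro s h1 h2
    have h3 := (hC s h1 h2).2
    have hspos : 0 < s := by linarith
    have h4 : ∀ p : Nat.Primes, g₀ s p ≤ f s p + h₀ p := by
      intro p
      simp only [hg₀, hf, hh₀]
      by_cases hpa : ((p : ℕ) : ZMod m) = a
      · by_cases hpB : (p : ℕ) ∈ B
        · rw [if_pos hpa, if_neg (fun h => h.2 hpB), if_pos hpB, zero_add]
          calc (c p : ℝ) * ((p : ℕ) : ℝ) ^ (-s) ≤ (c p : ℝ) * 1 :=
                mul_le_mul_of_nonneg_left (natCast_rpow_neg_le_one _ hspos) (Nat.cast_nonneg _)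
            _ = (c p : ℝ) := mul_one _
        · rw [if_pos hpa, if_pos ⟨hpa, hpB⟩, if_neg hpB, add_zero]
      · rw [if_neg hpa, if_neg (fun h => hpa h.1)]
        split_ifs
        · simp
        · simp
    have h5 : ∑' p, g₀ s p ≤ ∑' p, (f s p + h₀ p) :=
      (hg₀sum s h1 h2).tsum_le_tsum h4 ((hfsum s h1 h2).add hh₀sum)
    rw [(hfsum s h1 h2).tsum_add hh₀sum] at h5
    have h6 : ∑' p, g₀ s p = ∑' p : Nat.Primes,
        if ((p : ℕ) : ZMod m) = ((hζ.autToPow ℚ g : (ZMod m)ˣ) : ZMod m)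
          then (Spec.primeCount (IntermediateField.fixedField (Subgroup.zpowers g)) p : ℝ) *
            ((p : ℕ) : ℝ) ^ (-s)
          else 0 := rfl
    rw [h6] at h5
    linarith

end Fermat.Agent.Lib.ChebQ.H968
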